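/-
MLT / [L1] case (C), ORDINARY case (helper9): fork of `Lib/MLT/Fr3/Sc/Out.lean` (itself the `p = 3` fork of
`Lib/Ihara/Sc/Out.lean`) with the condition at `p` `IsFlatAt p` (`p ∤ N`, S32) replaced by `IsOrdinaryAt p`
(`p ∥ N` and `ρbar` ordinary at `p`, S33).  Generated by a rename script: only the declarations depending on the
condition at `p` are repeated, with the prefix `jh`/`Jh` replaced by `kh`/`Kh`.
-/
import Mathlib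
import Fermat.Agent.Lib.Ihara.Sc.Field
import Fermat.Agent.Lib.MLT.Fr3.Sc.Field
import Fermat.Agent.Lib.Ihara.Glue.Out
import Fermat.Agent.Lib.MLT.Fr3.Glue.Out
import Fermat.Agent.Lib.MLT.CO.J.Glue.Out
import Fermat.Agent.Lib.MLT.Fr3.Fr.Control
import Fermat.Agent.Lib.MLT.Fr3.Fr.Cyc
import Fermat.Agent.Lib.MLT.Fr3.Fr.Defs
import Fermat.Agent.Lib.MLT.Fr3.Fr.Free
import Fermat.Agent.Lib.MLT.Fr3.Fr.Ind
import Fermat.Agent.Lib.MLT.Fr3.Fr.Main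
import Fermat.Agent.Lib.MLT.Fr3.Fr.Ops
import Fermat.Agent.Lib.MLT.Fr3.Fr.Red
import Fermat.Agent.Lib.MLT.Fr3.Fr.ToolB
import Fermat.Agent.Lib.MLT.Fr3.Glue.Main
import Fermat.Agent.Lib.MLT.Fr3.Glue.Top
import Fermat.Agent.Lib.MLT.CO.J.Glue.Top
import Fermat.Agent.Lib.MLT.Fr3.Hm.ChiPart
import Fermat.Agent.Lib.MLT.Fr3.Hm.Dia
import Fermat.Agent.Lib.MLT.Fr3.Hm.Nil
import Fermat.Agent.Lib.MLT.Fr3.Hm.Part
import Fermat.Agent.Lib.MLT.Fr3.Hm.PartT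
import Fermat.Agent.Lib.MLT.Fr3.Hm.ProjPart
import Fermat.Agent.Lib.MLT.Fr3.Hm.Top
import Fermat.Agent.Lib.Ihara.Sc.Out
import Fermat.Agent.Lib.MLT.Fr3.Sc.Out
import Fermat.Agent.Lib.MLT.CO.I.Img.Rep
import Fermat.Agent.Lib.MLT.CO.I.Glue.Rep
import Fermat.Agent.Lib.MLT.CO.I.E.Main
import Fermat.Agent.Lib.MLT.CO.I.Glue.Out
import Fermat.Agent.Lib.MLT.CO.I.E.Out
import Fermat.Agent.Lib.MLT.CO.I.Nf.FieldsChi
import Fermat.Agent.Lib.MLT.CO.I.Glue.Fields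
import Fermat.Agent.Lib.MLT.CO.I.Glue.Hecke
import Fermat.Agent.Lib.MLT.CO.I.Sc.Out

set_option autoImplicit false
set_option linter.unusedSectionVars false
set_option linter.unusedVariables false
set_option linter.style.haveILetI false

open Matrix MatrixGroups CongruenceSubgroup ModularCurve ModularCurve.Period Module IsLocalRing
open Fermat.Agent.DS Fermat.Agent.T1 Fermat.Agent.T1G Fermat.Agent.T2 Fermat.Agent.S53Lib
  Fermat.Agent.TW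
open scoped TensorProduct

namespace Fermat.Agent.Ihara

local notation "Qbar" => AlgebraicClosure ℚ
local notation "GQ" => (AlgebraicClosure ℚ ≃ₐ[ℚ] AlgebraicClosure ℚ)

section Out

variable (O : Type) [CommRing O] [IsDomain O] [IsDiscreteValuationRing O] [CharZero O]
  [IsAdicComplete (maximalIdeal O) O] [Finite (ResidueField O)]
  (M : ℕ) [NeZero M] (hM : 6 ≤ M) (H : Subgroup (ZMod M)ˣ) (Ps : Set ℕ) (θ : ℕ → O)
  (Δ₁ : Subgroup ((ZMod M)ˣ ⧸ H)) (χ : Δ₁ →* O)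
  {N' : ℕ} [NeZero N'] {S : Finset ℕ}
  (a : CuspForm.heckeAlgebra N' 2 (↑S : Set ℕ) →+*
    Module.End O (IhmChiPart O M hM H Ps θ Δ₁ χ))
  (θ' : CuspForm.heckeAlgebra N' 2 (↑S : Set ℕ) →+* ResidueField O)

variable (hpart : ihdPart O a θ' = ⊤) [Nontrivial ↥(ihdPart O a θ')]
  (rA : GQ →* Matrix (Fin 2) (Fin 2) (IhdImg O a θ')) (hcts : MatCts (IhdImg O a θ') rA)
  {z : ℕ → (ZMod M)ˣ} {p : ℕ} {ρbar : ResidualGaloisRep (ResidueField O)}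
  {b : Module.Basis (Fin 2) (ResidueField O) ρbar.V} {Smin : Finset ℕ}
  (out : KhkOut O M hM H Ps θ Δ₁ χ z p ρbar b Smin a θ' hpart rA hcts)
  (hS : ∀ l : ℕ, l.Prime → l ∣ N' → l ∈ S)

end Out

section FieldOut

variable (O : Type) [CommRing O] [IsDomain O] [IsDiscreteValuationRing O] [CharZero O]
  [IsAdicComplete (maximalIdeal O) O] [Finite (ResidueField O)]
  (M : ℕ) [NeZero M] (hM : 6 ≤ M) (H : Subgroup (ZMod M)ˣ) (Ps : Set ℕ) (θ : ℕ → O)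
  (Δ₁ : Subgroup ((ZMod M)ˣ ⧸ H)) (χ : Δ₁ →* O)
  (Δ₁' : Subgroup ((ZMod M)ˣ ⧸ H)) (χ' : Δ₁' →* O)
  (hle : Δ₁ ≤ Δ₁') (hχ : ∀ g : Δ₁, χ' ⟨g, hle g.2⟩ = χ g)
  (γ : (ZMod M)ˣ ⧸ H) (hγ : γ ∈ Δ₁') (hγ1 : χ' ⟨γ, hγ⟩ = 1)
  (hsup : Δ₁' ≤ Δ₁ ⊔ Subgroup.zpowers γ)

include hle hχ hγ hγ1 hsup in
/-- **(H) [SC] in the tuple**: the (SC) conjunct of `hAQ` of helper7's `khk_hecke`, for any inertia
scalar `aq = tr(e · rA σ)` (`tr e = 1`, `aq ^ (p ^ c) = 1`) at the Taylor–Wiles prime `q` -/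
theorem khsc_field_out {p : ℕ} [hp : Fact p.Prime] (hL : JhfLevel p M H)
    (hpO : (p : O) ∈ maximalIdeal O)
    [Module.IsTorsionFree O (IhmChiPart O M hM H Ps θ Δ₁' χ')]
    {Rl : List ℕ} {k : ℕ → ℕ} (hyp : IhtcHyp M H Rl k) {q : ℕ} (hq : q ∈ Rl) (hqp : q ≠ p)
    (hne : Rl.erase q ≠ []) {N' : ℕ} [NeZero N'] (hN' : N' = M * Rl.prod)
    {S : Finset ℕ} (hpS : p ∈ S) (hS : ∀ ℓ : ℕ, ℓ.Prime → ℓ ∣ N' → ℓ ∈ S)
    (hιq : ∀ u : (ZMod q)ˣ, ∃ n : ℕ,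
      ((ihtcIota M q u : (ZMod M)ˣ) : (ZMod M)ˣ ⧸ H) = γ ^ n)
    (ρbar : ResidualGaloisRep (ResidueField O)) (habs : ρbar.IsAbsolutelyIrreducible)
    (b : Module.Basis (Fin 2) (ResidueField O) ρbar.V) (Smin : Finset ℕ)
    (a : CuspForm.heckeAlgebra N' 2 (↑S : Set ℕ) →+*
      Module.End O (IhmChiPart O M hM H Ps θ Δ₁ χ))
    (θ' : CuspForm.heckeAlgebra N' 2 (↑S : Set ℕ) →+* ResidueField O)
    (hpart : ihdPart O a θ' = ⊤) [Nontrivial ↥(ihdPart O a θ')]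
    (rA : GQ →* Matrix (Fin 2) (Fin 2) (IhdImg O a θ')) (hcts : MatCts (IhdImg O a θ') rA)
    (out : KhkOut O M hM H Ps θ Δ₁ χ (ihtcZ M Rl k) p ρbar b Smin a θ' hpart rA hcts)
    (hqPs : q ∈ Ps) (hθq : IsUnit (θ q)) (hθq2 : IsUnit (1 - θ q ^ 2))
    (hq1 : ((q : ℕ) : O) - 1 ∈ maximalIdeal O)
    (P : ValuationSubring Qbar) (hP : P.LiesOverPrime q) (σ : GQ)
    (hσ : σ ∈ P.inertiaSubgroupIn ℚ)
    (e : Matrix (Fin 2) (Fin 2) (IhdImg O a θ')) (he : e.trace = 1) (aq : IhdImg O a θ')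
    (haq : aq = (e * rA σ).trace) (c : ℕ) (haqc : aq ^ (p ^ c) = 1)
    (v : IhmChiPart O M hM H Ps θ Δ₁ χ) :
    ∃ u, ihiAct O a θ' hpart aq v - v = ihmChiDia O M hM H Ps θ Δ₁ χ γ u - u :=
  jhsc_field O M hM H Ps θ Δ₁ χ Δ₁' χ' hle hχ γ hγ hγ1 hsup hL hpO out.res_surj
    ihn_exists_pow_le_map (ihiAct O a θ' hpart) (fun t δ => (out.dia_comm δ t).symm) hyp hq hqp hne
    hN' S hpS hS hιq (ihscTau O M hM H Ps θ Δ₁ χ a θ')
    (khsc_out_act O M hM H Ps θ Δ₁ χ a θ' hpart rA hcts out hS) rA hcts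
    (ihsc_residual_absIrr ρbar habs b rA hcts out.strict)
    (khsc_out_frob O M hM H Ps θ Δ₁ χ a θ' hpart rA hcts out hS hpS) hqPs hθq hθq2 hq1 P hP σ hσ
    e he aq haq c haqc v

end FieldOut

end Fermat.Agent.Ihara
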