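/-
MLT / [L1] case (C), ORDINARY case (helper9): fork of `Lib/MLT/Fr3/Sc/Sum.lean` (itself the `p = 3` fork of
`Lib/Ihara/Sc/Sum.lean`) with the condition at `p` `IsFlatAt p` (`p ∤ N`, S32) replaced by `IsOrdinaryAt p`
(`p ∥ N` and `ρbar` ordinary at `p`, S33).  Generated by a rename script: only the declarations depending on the
condition at `p` are repeated, with the prefix `jh`/`Jh` replaced by `kh`/`Kh`.
-/
import Mathlib
import Fermat.Agent.Lib.Ihara.Sc.Out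
import Fermat.Agent.Lib.MLT.Fr3.Sc.Out
import Fermat.Agent.Lib.MLT.CO.J.Sc.Out
import Fermat.Agent.Lib.Ihara.Grp.Ext
import Fermat.Agent.Lib.Ihara.Grp.Tw
import Fermat.Agent.Lib.Ihara.Grp.Inst
import Fermat.Agent.Lib.MLT.Fr3.Fr.Control
import Fermat.Agent.Lib.MLT.Fr3.Fr.Cyc
import Fermat.Agent.Lib.MLT.Fr3.Fr.Defs
import Fermat.Agent.Lib.MLT.Fr3.Fr.Free
import Fermat.Agent.Lib.MLT.Fr3.Fr.Ind
import Fermat.Agent.Lib.MLT.Fr3.Fr.Main
import Fermat.Agent.Lib.MLT.Fr3.Fr.Ops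
import Fermat.Agent.Lib.MLT.Fr3.Fr.Red
import Fermat.Agent.Lib.MLT.Fr3.Fr.ToolB
import Fermat.Agent.Lib.MLT.Fr3.Glue.Main
import Fermat.Agent.Lib.MLT.Fr3.Glue.Out
import Fermat.Agent.Lib.MLT.CO.J.Glue.Out
import Fermat.Agent.Lib.MLT.Fr3.Glue.Top
import Fermat.Agent.Lib.MLT.CO.J.Glue.Top
import Fermat.Agent.Lib.MLT.Fr3.Grp.Level
import Fermat.Agent.Lib.MLT.Fr3.Hm.ChiPart
import Fermat.Agent.Lib.MLT.Fr3.Hm.Dia
import Fermat.Agent.Lib.MLT.Fr3.Hm.Nil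
import Fermat.Agent.Lib.MLT.Fr3.Hm.Part
import Fermat.Agent.Lib.MLT.Fr3.Hm.PartT
import Fermat.Agent.Lib.MLT.Fr3.Hm.ProjPart
import Fermat.Agent.Lib.MLT.Fr3.Hm.Top
import Fermat.Agent.Lib.MLT.Fr3.Sc.Field
import Fermat.Agent.Lib.Ihara.Sc.Sum
import Fermat.Agent.Lib.MLT.Fr3.Sc.Sum
import Fermat.Agent.Lib.MLT.CO.I.Img.Rep
import Fermat.Agent.Lib.MLT.CO.I.Glue.Rep
import Fermat.Agent.Lib.MLT.CO.I.E.Main
import Fermat.Agent.Lib.MLT.CO.I.Glue.Out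
import Fermat.Agent.Lib.MLT.CO.I.E.Out
import Fermat.Agent.Lib.MLT.CO.I.Nf.FieldsChi
import Fermat.Agent.Lib.MLT.CO.I.Glue.Fields
import Fermat.Agent.Lib.MLT.CO.I.Glue.Hecke
import Fermat.Agent.Lib.MLT.CO.I.Sc.Out

set_option autoImplicit false
set_option linter.unusedSectionVars false
set_option linter.unusedVariables false
set_option linter.style.haveILetI false

open Matrix MatrixGroups CongruenceSubgroup ModularCurve ModularCurve.Period Module IsLocalRing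
open Fermat.Agent.DS Fermat.Agent.T1 Fermat.Agent.T1G Fermat.Agent.T2 Fermat.Agent.S53Lib
  Fermat.Agent.TW

namespace Fermat.Agent.Ihara

local notation "Qbar" => AlgebraicClosure ℚ
local notation "GQ" => (AlgebraicClosure ℚ ≃ₐ[ℚ] AlgebraicClosure ℚ)

section Sum

variable (O : Type) [CommRing O] [IsDomain O] [IsDiscreteValuationRing O] [CharZero O]
  [IsAdicComplete (maximalIdeal O) O] [Finite (ResidueField O)]
  (p : ℕ) [hp : Fact p.Prime] (M : ℕ) [NeZero M] (hM : 6 ≤ M)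
  {r : ℕ} {Tc : Finset Nat.Primes} {qv : Fin r → ℕ}
  (h : IhqData M (ihqPrimes Tc qv) (ihqOrders Tc qv p))
  (Ps : Set ℕ) (θ : ℕ → O) (χ : ↥(ihqD1 h) →* O)

/-- **(H) [SC]**: the (SC) conjunct of the hypothesis `hAQ` of `khk_hecke` at the Taylor–Wiles prime
`qv i`, for any inertia scalar `aq = tr(e · rA σ)` with `tr e = 1`, `aq ^ (p ^ c) = 1` -/
theorem khsc_field_sum (hL : JhfLevel p M (ihqKappa h).ker) (hpO : (p : O) ∈ maximalIdeal O)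
    (hMsq : Squarefree M) (i : Fin r)
    [Module.IsTorsionFree O
      (IhmChiPart O M hM (ihqKappa h).ker Ps θ (ihqD1' h i) (ihqChi' h i χ))]
    {Rl : List ℕ} {k : ℕ → ℕ} (hyp : IhtcHyp M (ihqKappa h).ker Rl k) (hq : qv i ∈ Rl)
    (hqp : qv i ≠ p) (hne : Rl.erase (qv i) ≠ []) {N' : ℕ} [NeZero N'] (hN' : N' = M * Rl.prod)
    {S : Finset ℕ} (hpS : p ∈ S) (hS : ∀ ℓ : ℕ, ℓ.Prime → ℓ ∣ N' → ℓ ∈ S)
    (ρbar : ResidualGaloisRep (ResidueField O)) (habs : ρbar.IsAbsolutelyIrreducible)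
    (b : Module.Basis (Fin 2) (ResidueField O) ρbar.V) (Smin : Finset ℕ)
    (a : CuspForm.heckeAlgebra N' 2 (↑S : Set ℕ) →+*
      Module.End O (IhmChiPart O M hM (ihqKappa h).ker Ps θ (ihqD1 h) χ))
    (θ' : CuspForm.heckeAlgebra N' 2 (↑S : Set ℕ) →+* ResidueField O)
    (hpart : ihdPart O a θ' = ⊤) [Nontrivial ↥(ihdPart O a θ')]
    (rA : GQ →* Matrix (Fin 2) (Fin 2) (IhdImg O a θ')) (hcts : MatCts (IhdImg O a θ') rA)
    (out : KhkOut O M hM (ihqKappa h).ker Ps θ (ihqD1 h) χ (ihtcZ M Rl k) p ρbar b Smin a θ' hpart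
      rA hcts)
    (hqPs : qv i ∈ Ps) (hθq : IsUnit (θ (qv i))) (hθq2 : IsUnit (1 - θ (qv i) ^ 2))
    (hq1 : ((qv i : ℕ) : O) - 1 ∈ maximalIdeal O)
    (P : ValuationSubring Qbar) (hP : P.LiesOverPrime (qv i)) (σ : GQ)
    (hσ : σ ∈ P.inertiaSubgroupIn ℚ)
    (e : Matrix (Fin 2) (Fin 2) (IhdImg O a θ')) (he : e.trace = 1) (aq : IhdImg O a θ')
    (haq : aq = (e * rA σ).trace) (c : ℕ) (haqc : aq ^ (p ^ c) = 1)
    (v : IhmChiPart O M hM (ihqKappa h).ker Ps θ (ihqD1 h) χ) :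
    ∃ u, ihiAct O a θ' hpart aq v - v
      = ihmChiDia O M hM (ihqKappa h).ker Ps θ (ihqD1 h) χ
          (((ihqD2Equiv h).symm (ihqGen _ i) : ↥(ihqD2 h)) : (ZMod M)ˣ ⧸ (ihqKappa h).ker) u
        - u :=
  khsc_field_out O M hM (ihqKappa h).ker Ps θ (ihqD1 h) χ (ihqD1' h i) (ihqChi' h i χ)
    (ihqD1_le_D1' h i) (fun g => ihqChi'_of_mem h i χ g.1 g.2) (ihqG2 h i) (ihqG2_mem_D1' h i)
    (ihqChi'_G2 h i χ) le_rfl hL hpO hyp hq hqp hne hN' hpS hS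
    (fun u => ihq_mk_eq_pow_G2 h i _ (ihq_iota_mem_ker_ne hMsq h (Sum.inr i) u))
    ρbar habs b Smin a θ' hpart rA hcts out hqPs hθq hθq2 hq1 P hP σ hσ e he aq haq c haqc v

end Sum

section Cong

end Cong

end Fermat.Agent.Ihara
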